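import Fermat.Statements.S22
import Fermat.Agent.S22.Injective
import Fermat.Agent.S22.LatticeHecke
import Fermat.Agent.S22.Algebra
import Fermat.Agent.S22.SmallWeight

set_option autoImplicit false
open CuspForm

namespace Fermat.Agent.S22

theorem result (N : ℕ) [NeZero N] (k : ℤ) (S : Set ℕ) :
    Module.Finite ℤ (CuspForm.heckeAlgebra N k S) := by
  rcases le_or_gt k 1 with hk | hk
  · haveI : Subsingleton (CuspForm (CongruenceSubgroup.Gamma0 N) k) :=
      ⟨fun f g => by
        rw [cuspForm_eq_zero_of_weight_le_one hk f, cuspForm_eq_zero_of_weight_le_one hk g]⟩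
    haveI : Subsingleton (Module.End ℂ (CuspForm (CongruenceSubgroup.Gamma0 N) k)) :=
      ⟨fun a b => LinearMap.ext fun x => Subsingleton.elim _ _⟩
    haveI : Subsingleton (CuspForm.heckeAlgebra N k S) :=
      ⟨fun a b => Subtype.ext (Subsingleton.elim _ _)⟩
    infer_instance
  · obtain ⟨w, rfl⟩ : ∃ w : ℕ, k = (w : ℤ) + 2 := ⟨(k - 2).toNat, by omega⟩
    refine finite_adjoin_of_lattice (heckeGenerators N ((w : ℤ) + 2) S) (perLattice N w)
      perLattice_fg ?_ perLattice_separating
    rintro t (⟨ℓ, hℓ, hℓN, -, rfl⟩ | ⟨q, hqN, -, -, rfl⟩) l hl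
    · exact perLattice_heckeT hℓ hℓN l hl
    · exact perLattice_heckeU hqN l hl

end Fermat.Agent.S22
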