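import Fermat.Statements.S02

set_option autoImplicit false
open FreyPackage

namespace Fermat.Agent.S02

/-- Final step: `b` even, `a` odd, coprime. -/
theorem aux_final (a b c : ℤ) (ha : a ≠ 0) (hb : b ≠ 0) (hc : c ≠ 0) (p : ℕ) (pp : p.Prime)
    (hp5 : 5 ≤ p) (H : a ^ p + b ^ p = c ^ p) (hgcd : gcd a b = 1)
    (hb2 : (2 : ℤ) ∣ b) (ha2 : ¬ (2 : ℤ) ∣ a) : Nonempty FreyPackage := by
  have hodd : Odd p := pp.odd_of_ne_two (by omega)
  have hb2' : ((b : ℤ) : ZMod 2) = 0 := (ZMod.intCast_zmod_eq_zero_iff_dvd b 2).2 hb2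
  have h4 : a % 4 = 3 ∨ a % 4 = 1 := by omega
  rcases h4 with h4 | h4
  · refine ⟨⟨a, b, c, ha, hb, hc, p, pp, hp5, H, hgcd, ?_, hb2'⟩⟩
    have : ((a : ℤ) : ZMod 4) = ((3 : ℤ) : ZMod 4) := by
      rw [ZMod.intCast_eq_intCast_iff_dvd_sub]
      push_cast
      omega
    simpa using this
  · refine ⟨⟨-a, -b, -c, neg_ne_zero.2 ha, neg_ne_zero.2 hb, neg_ne_zero.2 hc, p, pp, hp5, ?_, ?_,
      ?_, ?_⟩⟩
    · rw [hodd.neg_pow, hodd.neg_pow, hodd.neg_pow, ← H]; ring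
    · rw [gcd_neg, neg_gcd]; exact hgcd
    · have : (((-a : ℤ)) : ZMod 4) = ((3 : ℤ) : ZMod 4) := by
        rw [ZMod.intCast_eq_intCast_iff_dvd_sub]
        push_cast
        omega
      simpa using this
    · have : (2 : ℤ) ∣ -b := (dvd_neg).2 hb2
      exact (ZMod.intCast_zmod_eq_zero_iff_dvd (-b) 2).2 this

/-- Coprime case. -/
theorem aux_coprime (a b c : ℤ) (ha : a ≠ 0) (hb : b ≠ 0) (hc : c ≠ 0) (p : ℕ) (pp : p.Prime)
    (hp5 : 5 ≤ p) (H : a ^ p + b ^ p = c ^ p) (hgcd : gcd a b = 1) : Nonempty FreyPackage := by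
  have hodd : Odd p := pp.odd_of_ne_two (by omega)
  have hp0 : p ≠ 0 := by omega
  have hppos : 0 < p := by omega
  have hnot : ¬ ((2 : ℤ) ∣ a ∧ (2 : ℤ) ∣ b) := by
    rintro ⟨h1, h2⟩
    have := dvd_gcd h1 h2
    rw [hgcd] at this
    omega
  by_cases hb2 : (2 : ℤ) ∣ b
  · exact aux_final a b c ha hb hc p pp hp5 H hgcd hb2 (fun h => hnot ⟨h, hb2⟩)
  · by_cases ha2 : (2 : ℤ) ∣ a
    · exact aux_final b a c hb ha hc p pp hp5 (by rw [add_comm]; exact H)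
        (by rw [gcd_comm]; exact hgcd) ha2 hb2
    · -- both odd, so `c` is even
      have hc2 : (2 : ℤ) ∣ c := by
        have hao : Odd a := by
          rw [← Int.not_even_iff_odd, even_iff_two_dvd]; exact ha2
        have hbo : Odd b := by
          rw [← Int.not_even_iff_odd, even_iff_two_dvd]; exact hb2
        have : Even (c ^ p) := by
          rw [← H]; exact (hao.pow).add_odd (hbo.pow)
        have := (Int.even_pow.1 this).1
        exact even_iff_two_dvd.1 this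
      refine aux_final a (-c) (-b) ha (neg_ne_zero.2 hc) (neg_ne_zero.2 hb) p pp hp5 ?_ ?_
        ((dvd_neg).2 hc2) ha2
      · rw [hodd.neg_pow, hodd.neg_pow, ← H]; ring
      · rw [gcd_neg, ← gcdab_eq_gcdac hppos H]; exact hgcd

theorem result (a b c : ℤ) (ha : a ≠ 0) (hb : b ≠ 0) (hc : c ≠ 0) (p : ℕ) (pp : p.Prime) (hp5 : 5 ≤ p) (H : a ^ p + b ^ p = c ^ p) : Nonempty FreyPackage := by
  have hp0 : p ≠ 0 := by omega
  have hpos : 0 < Int.gcd a b := Int.gcd_pos_of_ne_zero_left b ha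
  obtain ⟨a', b', hcop, ha', hb'⟩ := Int.exists_gcd_one hpos
  set d : ℤ := (Int.gcd a b : ℤ) with hd
  have hd0 : d ≠ 0 := by
    rw [hd]; exact_mod_cast hpos.ne'
  have hdc : d ∣ c := by
    rw [← Int.pow_dvd_pow_iff hp0, ← H, ha', hb', mul_pow, mul_pow]
    exact dvd_add (dvd_mul_left _ _) (dvd_mul_left _ _)
  obtain ⟨c', hc'⟩ := hdc
  have ha'0 : a' ≠ 0 := by
    rintro rfl; apply ha; rw [ha']; ring
  have hb'0 : b' ≠ 0 := by
    rintro rfl; apply hb; rw [hb']; ring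
  have hc'0 : c' ≠ 0 := by
    rintro rfl; apply hc; rw [hc']; ring
  have H' : a' ^ p + b' ^ p = c' ^ p := by
    have hdp : d ^ p ≠ 0 := pow_ne_zero _ hd0
    apply mul_right_cancel₀ hdp
    rw [add_mul, ← mul_pow, ← mul_pow, ← mul_pow, ← ha', ← hb', mul_comm c' d, ← hc']
    exact H
  refine aux_coprime a' b' c' ha'0 hb'0 hc'0 p pp hp5 H' ?_
  change ((Int.gcd a' b' : ℕ) : ℤ) = 1
  rw [hcop]; rfl

end Fermat.Agent.S02
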