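import Fermat.Statements.S05
import Fermat.Agent.S05.CurveMain
import Fermat.Agent.S05.Inertia

set_option autoImplicit false
open WeierstrassCurve WeierstrassCurve.Affine WeierstrassCurve.Affine.Point
open CuspForm ModularFormClass UpperHalfPlane
open FreyPackage

namespace Fermat.Agent.S05

lemma val_intCast_eq_one {L : Type*} [Field L] (A : ValuationSubring L) {q : ℕ} (hq : q.Prime)
    (hA : A.LiesOverPrime q) {n : ℤ} (hn : ¬ (q : ℤ) ∣ n) : A.valuation (n : L) = 1 := by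
  rw [val_eq_one_iff]
  exact ⟨intCast_mem A n, fun h => hn ((intCast_mem_nonunits_iff A hq hA n).mp h)⟩

theorem result (P : FreyPackage) {q : ℕ} (hq : q.Prime) (hq2 : q ≠ 2) (hqp : q ≠ P.p) : P.GaloisRepUnramifiedAt q := by
  intro A hA σ hσ x
  apply Subtype.ext
  have hx : P.p • x.1 = 0 := by
    have := x.2
    rw [Submodule.mem_torsionBy_iff] at this
    simpa using this
  show Point.map σ.toAlgHom x.1 = x.1
  have hσ' : ∀ a ∈ A, σ a - a ∈ A.nonunits := fun a ha => inertia_sub_mem A hσ ha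
  have hv2 : A.valuation (2 : AlgebraicClosure ℚ) = 1 := by
    have := val_intCast_eq_one A hq hA (n := 2) (by
      intro h
      have h' : q ∣ 2 := by exact_mod_cast h
      exact hq2 ((Nat.prime_dvd_prime_iff_eq hq Nat.prime_two).mp h'))
    simpa using this
  have hvp : ((P.p : ℕ) : AlgebraicClosure ℚ) ∉ A.nonunits := by
    have := val_intCast_eq_one A hq hA (n := (P.p : ℤ)) (by
      intro h
      have h' : q ∣ P.p := by exact_mod_cast h
      exact hqp ((Nat.prime_dvd_prime_iff_eq hq P.pp).mp h'))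
    apply not_nonunits_of_val_eq_one
    simpa using this
  have hp2 : P.p ≠ 2 := by have := P.hp5; omega
  have hFLT : (P.a : ℚ) ^ P.p + (P.b : ℚ) ^ P.p = (P.c : ℚ) ^ P.p := by exact_mod_cast P.hFLT
  have hb2 : P.freyCurve.b₂ = (P.b : ℚ) ^ P.p - (P.a : ℚ) ^ P.p := by
    simp only [freyCurve, WeierstrassCurve.b₂]; ring
  have hb4 : P.freyCurve.b₄ = -((P.a : ℚ) ^ P.p * (P.b : ℚ) ^ P.p) / 8 := by
    simp only [freyCurve, WeierstrassCurve.b₄]; ring
  have hb6 : P.freyCurve.b₆ = 0 := by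
    simp only [freyCurve, WeierstrassCurve.b₆]; ring
  have hint : ∀ n : ℤ, algebraMap ℚ (AlgebraicClosure ℚ) (n : ℚ) ∈ A := by
    intro n; rw [map_intCast]; exact intCast_mem A n
  have hv16 : A.valuation (algebraMap ℚ (AlgebraicClosure ℚ) (1 / 16)) = 1 := by
    have h16 : (16 : AlgebraicClosure ℚ) = 2 ^ 4 := by norm_num
    rw [map_div₀, map_one, map_ofNat, h16, map_div₀, map_one, map_pow, hv2]
    simp
  have hvn16 : A.valuation (algebraMap ℚ (AlgebraicClosure ℚ) (-(1 / 16))) = 1 := by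
    rw [map_neg, Valuation.map_neg, hv16]
  have hvpow : ∀ n : ℤ, ¬ (q : ℤ) ∣ n →
      A.valuation (algebraMap ℚ (AlgebraicClosure ℚ) (((n : ℚ) ^ P.p) ^ 2)) = 1 := by
    intro n hn
    simp only [map_pow, map_intCast, val_intCast_eq_one A hq hA hn, one_pow]
  by_cases hqc : (q : ℤ) ∣ P.c
  · have hqb : ¬ (q : ℤ) ∣ P.b := by
      intro h
      have h1 : (q : ℤ) ∣ gcd P.b P.c := dvd_gcd h hqc
      rw [P.hgcdbc] at h1
      have h2 : q ∣ 1 := by exact_mod_cast h1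
      exact hq.one_lt.ne' (Nat.dvd_one.mp h2)
    refine curve_main P.freyCurve A σ hσ' ((P.a : ℚ) ^ P.p / 4)
      ((P.a : ℚ) ^ P.p * (P.c : ℚ) ^ P.p / 16) (1 / 16) ((P.a * P.c : ℤ) : ℚ) ?_ ?_ P.pp hp2 hvp hv2
      ?_ ?_ ?_ hv16 (hint _) ?_ ?_ x.1 hx
    · rw [hb2, hb4, hb6]; ring
    · rw [hb2, hb4, ← hFLT]; ring
    · have : 12 * ((P.a : ℚ) ^ P.p / 4) + P.freyCurve.b₂ = ((2 * P.a ^ P.p + P.b ^ P.p : ℤ) : ℚ) := by
        rw [hb2]; push_cast; ring
      rw [this]; exact hint _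
    · have : (P.a : ℚ) ^ P.p * (P.c : ℚ) ^ P.p / 16 = (1 / 16) * ((P.a ^ P.p * P.c ^ P.p : ℤ) : ℚ) := by
        push_cast; ring
      rw [this, map_mul]
      exact mul_mem (mem_of_val_eq_one A hv16) (hint _)
    · have : (12 * ((P.a : ℚ) ^ P.p / 4) + P.freyCurve.b₂) ^ 2 -
          64 * ((P.a : ℚ) ^ P.p * (P.c : ℚ) ^ P.p / 16) = ((P.b : ℚ) ^ P.p) ^ 2 := by
        rw [hb2, ← hFLT]; ring
      rw [this]; exact hvpow _ hqb
    · exact_mod_cast mul_ne_zero P.ha0 P.hc0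
    · push_cast; ring
  · refine curve_main P.freyCurve A σ hσ' 0
      (-((P.a : ℚ) ^ P.p * (P.b : ℚ) ^ P.p) / 16) (-(1 / 16)) ((P.a * P.b : ℤ) : ℚ) ?_ ?_ P.pp hp2
      hvp hv2 ?_ ?_ ?_ hvn16 (hint _) ?_ ?_ x.1 hx
    · rw [hb6]; ring
    · rw [hb4]; ring
    · have : 12 * (0 : ℚ) + P.freyCurve.b₂ = ((P.b ^ P.p - P.a ^ P.p : ℤ) : ℚ) := by
        rw [hb2]; push_cast; ring
      rw [this]; exact hint _
    · have : -((P.a : ℚ) ^ P.p * (P.b : ℚ) ^ P.p) / 16 =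
          (-(1 / 16)) * ((P.a ^ P.p * P.b ^ P.p : ℤ) : ℚ) := by
        push_cast; ring
      rw [this, map_mul]
      exact mul_mem (mem_of_val_eq_one A hvn16) (hint _)
    · have : (12 * (0 : ℚ) + P.freyCurve.b₂) ^ 2 -
          64 * (-((P.a : ℚ) ^ P.p * (P.b : ℚ) ^ P.p) / 16) = ((P.c : ℚ) ^ P.p) ^ 2 := by
        rw [hb2, ← hFLT]; ring
      rw [this]; exact hvpow _ hqc
    · exact_mod_cast mul_ne_zero P.ha0 P.hb0
    · push_cast; ring

end Fermat.Agent.S05
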