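import Fermat.Statements.S07
import Fermat.Prelude.Thm_ModularForm_sturm_bound_Gamma0
import Fermat.Prelude.Thm_CongruenceSubgroup_one_mem_strictPeriods_Gamma0

set_option autoImplicit false
open WeierstrassCurve WeierstrassCurve.Affine WeierstrassCurve.Affine.Point
open CuspForm ModularFormClass UpperHalfPlane
open ModularForm

namespace Fermat.Agent.S07

open scoped MatrixGroups

theorem inv_mul_apply_one_zero (a b : SL(2, ℤ)) :
    (a⁻¹ * b) 1 0 = -(a 1 0) * (b 0 0) + (a 0 0) * (b 1 0) := by
  have h1 : ((a⁻¹ * b : SL(2, ℤ)) : Matrix (Fin 2) (Fin 2) ℤ) =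
      (a⁻¹ : SL(2, ℤ)).1 * b.1 := Matrix.SpecialLinearGroup.coe_mul _ _
  have h2 := Matrix.SpecialLinearGroup.SL2_inv_expl a
  show ((a⁻¹ * b : SL(2, ℤ)) : Matrix (Fin 2) (Fin 2) ℤ) 1 0 = _
  rw [h1, h2, Matrix.mul_apply, Fin.sum_univ_two]
  simp

theorem zmod_two_aux : ∀ a b c d a' b' c' d' : ZMod 2, a * d - b * c = 1 → a' * d' - b' * c' = 1 →
    -c * a' + a * c' = 0 → a = a' ∧ c = c' := by
  decide

theorem index_Gamma0_two_le : (CongruenceSubgroup.Gamma0 2).index ≤ 4 := by
  classical
  let φ : SL(2, ℤ) ⧸ (CongruenceSubgroup.Gamma0 2) → ZMod 2 × ZMod 2 :=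
    Quotient.lift (s := QuotientGroup.leftRel (CongruenceSubgroup.Gamma0 2))
      (fun g : SL(2, ℤ) => (((g 0 0 : ℤ) : ZMod 2), ((g 1 0 : ℤ) : ZMod 2))) (by
        intro a b hab
        have hab' : a⁻¹ * b ∈ CongruenceSubgroup.Gamma0 2 := QuotientGroup.leftRel_apply.mp hab
        rw [CongruenceSubgroup.Gamma0_mem, inv_mul_apply_one_zero] at hab'
        have hda := congrArg (Int.cast : ℤ → ZMod 2) a.det_coe
        have hdb := congrArg (Int.cast : ℤ → ZMod 2) b.det_coe
        rw [Matrix.det_fin_two] at hda hdb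
        push_cast at hda hdb hab'
        have := zmod_two_aux _ _ _ _ _ _ _ _ hda hdb hab'
        exact Prod.ext this.1 this.2)
  have hφ : Function.Injective φ := by
    intro x y
    induction x using QuotientGroup.induction_on with
    | H a =>
    induction y using QuotientGroup.induction_on with
    | H b =>
    intro h
    have h' : (((a 0 0 : ℤ) : ZMod 2), ((a 1 0 : ℤ) : ZMod 2)) =
        (((b 0 0 : ℤ) : ZMod 2), ((b 1 0 : ℤ) : ZMod 2)) := h
    rw [Prod.mk.injEq] at h'
    rw [QuotientGroup.eq, CongruenceSubgroup.Gamma0_mem, inv_mul_apply_one_zero]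
    push_cast
    rw [h'.1, h'.2]
    ring
  have := Nat.card_le_card_of_injective φ hφ
  simpa [Subgroup.index, Nat.card_prod] using this

theorem result (f : CuspForm (CongruenceSubgroup.Gamma0 2) 2) : f = 0 := by
  have h1 := CongruenceSubgroup.one_mem_strictPeriods_Gamma0 2
  have h0 : (qExpansion 1 f).coeff 0 = 0 :=
    CuspFormClass.qExpansion_coeff_zero f one_pos h1
  have hz : (CuspForm.toModularFormₗ f) = 0 := by
    apply ModularForm.sturm_bound_Gamma0 2
    intro n hn
    have hidx := index_Gamma0_two_le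
    have : n = 0 := by
      have h2 : ((2 : ℤ) * ((CongruenceSubgroup.Gamma0 2).index : ℤ)).toNat / 12 = 0 := by
        omega
      omega
    subst this
    exact h0
  exact CuspForm.toModularFormₗ_injective (by simpa using hz)

end Fermat.Agent.S07
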