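import Fermat.Statements.S10
import Fermat.Agent.S10.V.FreyGlue
import Fermat.Agent.S10.V.SophieGermain
import Fermat.Agent.S10.V.FLTCaseII
import Fermat.Agent.S10.V.CyclotomicPID7
import Fermat.Agent.S10.V.CyclotomicPID13
import Fermat.Agent.S10.V.Kummer.P5
import Fermat.Agent.S10.V.Kummer.P7
import Fermat.Agent.S10.V.Kummer.P13

set_option autoImplicit false
open WeierstrassCurve WeierstrassCurve.Affine WeierstrassCurve.Affine.Point
open CuspForm ModularFormClass UpperHalfPlane
open FreyPackage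

namespace Fermat.Agent.S10

theorem isCyclotomicExtension_rat (p : ℕ) :
    IsCyclotomicExtension {p} ℚ (CyclotomicField p ℚ) := by
  have h : @IsCyclotomicExtension {p} ℚ (CyclotomicField p ℚ) _ _
      (CyclotomicField.algebra p ℚ) := inferInstance
  convert h
  exact Subsingleton.elim _ _

open NumberField in
theorem false_of_kummer (P : FreyPackage) (p : ℕ) [Fact p.Prime] (hP : P.p = p) (hodd : p ≠ 2)
    (hI : ∀ a b c : ℤ, IsCoprime a b → ¬ ((p : ℕ) : ℤ) ∣ a * b * c → a ^ p + b ^ p = c ^ p → False)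
    (hPID : ∀ (K : Type) [Field K] [NumberField K] [IsCyclotomicExtension {p} ℚ K],
      IsPrincipalIdealRing (𝓞 K))
    (hKL : ∀ (K : Type) [Field K] [NumberField K] [IsCyclotomicExtension {p} ℚ K]
      (u : (𝓞 K)ˣ) (n : ℤ), (p : 𝓞 K) ∣ (u : 𝓞 K) - n → ∃ v : (𝓞 K)ˣ, u = v ^ p) : False := by
  have := isCyclotomicExtension_rat p
  refine V.FreyGlue.false_of_cases P (by rw [hP]; exact hI) ?_
  rw [hP]
  intro a b c habc hab hpc
  exact V.FLTCaseII.caseII hodd (CyclotomicField p ℚ) (hPID _) (hKL _) a b c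
    (right_ne_zero_of_mul habc) hab hpc

theorem result (P : FreyPackage) (hp : P.p = 5 ∨ P.p = 7 ∨ P.p = 13) : ¬ HasGaloisStableCofixedLine (K := AlgebraicClosure ℚ) ℚ P.freyCurve P.p := by
  intro _
  rcases hp with h | h | h
  · have : Fact (Nat.Prime 5) := ⟨by norm_num⟩
    exact false_of_kummer P 5 h (by norm_num) V.SophieGermain.caseI_five
      (fun K _ _ _ => IsCyclotomicExtension.Rat.five_pid K)
      (fun K _ _ _ => V.Kummer.kummer_lemma_five K)
  · have : Fact (Nat.Prime 7) := ⟨by norm_num⟩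
    exact false_of_kummer P 7 h (by norm_num) V.SophieGermain.caseI_seven
      (fun K _ _ _ => V.CyclotomicPID7.seven_pid K)
      (fun K _ _ _ => V.Kummer.kummer_lemma_seven K)
  · have : Fact (Nat.Prime 13) := ⟨by norm_num⟩
    exact false_of_kummer P 13 h (by norm_num) V.SophieGermain.caseI_thirteen
      (fun K _ _ _ => V.CyclotomicPID.thirteen_pid K)
      (fun K _ _ _ => V.Kummer.kummer_lemma_thirteen K)

end Fermat.Agent.S10
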