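-- Statement S11: proved by showing there is no Frey package with `p = 11`
-- (Fermat's Last Theorem for exponent 11, via Sophie Germain (case I) and Kummer (case II)).
import Fermat.Statements.S11
import Fermat.Agent.Lib.FreyGlue
import Fermat.Agent.Lib.SophieGermain
import Fermat.Agent.Lib.FLTCaseII
import Fermat.Agent.Lib.CyclotomicPID11
import Fermat.Agent.Lib.Kummer.P11

set_option autoImplicit false
open WeierstrassCurve WeierstrassCurve.Affine WeierstrassCurve.Affine.Point
open CuspForm ModularFormClass UpperHalfPlane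
open FreyPackage

namespace Fermat.Agent.S11

/-- Case II of Fermat's Last Theorem for exponent `11`. -/
theorem caseII_eleven (a b c : ℤ) (hc : c ≠ 0) (hab : IsCoprime a b) (hpc : ((11 : ℕ) : ℤ) ∣ c) :
    a ^ 11 + b ^ 11 ≠ c ^ 11 := by
  have : Fact (Nat.Prime 11) := ⟨by norm_num⟩
  have hcyc : IsCyclotomicExtension {11} ℚ (CyclotomicField 11 ℚ) := by
    have h := CyclotomicField.isCyclotomicExtension 11 ℚ
    have e : (DivisionRing.toRatAlgebra : Algebra ℚ (CyclotomicField 11 ℚ)) =
        CyclotomicField.algebra 11 ℚ := Subsingleton.elim _ _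
    rw [e]
    exact h
  exact Fermat.Agent.Lib.FLTCaseII.caseII (p := 11) (by norm_num) (CyclotomicField 11 ℚ)
    (Fermat.Agent.Lib.CyclotomicPID11.eleven_pid (CyclotomicField 11 ℚ))
    (fun u n h => Fermat.Agent.Lib.Kummer.kummer_lemma_eleven (CyclotomicField 11 ℚ) u n h)
    a b c hc hab hpc

/-- There is no Frey package with `p = 11`. -/
theorem false_of_eleven (P : FreyPackage) (hp : P.p = 11) : False := by
  refine Fermat.Agent.Lib.FreyGlue.false_of_cases P ?_ ?_
  · intro a b c hab hndvd h
    rw [hp] at hndvd h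
    exact Fermat.Agent.Lib.SophieGermain.caseI_eleven a b c hab hndvd h
  · intro a b c habc hab hpc
    rw [hp] at hpc ⊢
    exact caseII_eleven a b c (by rintro rfl; simp at habc) hab hpc

theorem result (P : FreyPackage) (hp : P.p = 11) : ¬ HasGaloisStableCofixedLine (K := AlgebraicClosure ℚ) ℚ P.freyCurve P.p := by
  exact (false_of_eleven P hp).elim

end Fermat.Agent.S11
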