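import Fermat.Statements.S13
import Fermat.Agent.S05
import Fermat.Agent.S13.Groups
import Fermat.Agent.S13.Mink
import Fermat.Agent.S13.FreyTwo
import Fermat.Agent.S13.FreyP
import Fermat.Agent.S13.RatProd

set_option autoImplicit false
open WeierstrassCurve WeierstrassCurve.Affine WeierstrassCurve.Affine.Point
open CuspForm ModularFormClass UpperHalfPlane
open FreyPackage

namespace Fermat.Agent.S13

open Fermat.Agent.S05

/-- the additive endomorphism of `E[p]` induced by `σ` -/
noncomputable def actHom (P : FreyPackage) (σ : GalQ) : Tors P →+ Tors P :=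
  DistribSMul.toAddMonoidHom (Tors P) σ

lemma actHom_apply (P : FreyPackage) (σ : GalQ) (x : Tors P) : actHom P σ x = σ • x := rfl

/-- the kernel of reduction inside `E[p]` -/
noncomputable def torsE1 (P : FreyPackage) (A : ValuationSubring Kb) : AddSubgroup (Tors P) where
  carrier := {x | x = 0 ∨ xc (x : Pt P) ∉ A}
  add_mem' := fun {a b} ha hb => by
    have ha' : (a : Pt P) = 0 ∨ xc (a : Pt P) ∉ A := ha.imp (fun h => by rw [h]; rfl) id
    have hb' : (b : Pt P) = 0 ∨ xc (b : Pt P) ∉ A := hb.imp (fun h => by rw [h]; rfl) id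
    rcases frey_E1_add P A ha' hb' with h | h
    · exact Or.inl (Subtype.ext h)
    · exact Or.inr h
  zero_mem' := Or.inl rfl
  neg_mem' := fun {a} ha => by
    rcases ha with h | h
    · left; rw [h, _root_.neg_zero]
    · right
      show xc (-(a : Pt P)) ∉ A
      rwa [xc_neg]

/-- inertia at `p`: the dichotomy -/
theorem inertia_p (P : FreyPackage) (N : Submodule (ZMod P.p) (Tors P))
    (hN : IsGaloisStable ℚ N) (hbot : N ≠ ⊥) (htop : N ≠ ⊤) (hat : IsAtom N) (hco : IsCoatom N) :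
    (∀ A : ValuationSubring Kb, A.LiesOverPrime P.p → A.inertiaSubgroupIn ℚ ≤ fixGroup P N) ∨
    (∀ A : ValuationSubring Kb, A.LiesOverPrime P.p →
      A.inertiaSubgroupIn ℚ ≤ cofixGroup P N hN) := by
  haveI : Fact P.p.Prime := ⟨P.pp⟩
  have key : ∀ A : ValuationSubring Kb, A.LiesOverPrime P.p → ∀ σ ∈ A.inertiaSubgroupIn ℚ,
      ∃ V₀ : AddSubgroup (Tors P), torsE1 P A ≤ V₀ ∧ (∀ x, actHom P σ x - x ∈ V₀) ∧
        (∀ x ∈ V₀, actHom P σ x - x ∈ torsE1 P A) := by
    intro A hA σ hσ
    obtain ⟨W₀, hW1, hW⟩ := frey_local_p P A hA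
    refine ⟨W₀.comap (Submodule.subtype _).toAddMonoidHom, ?_, ?_, ?_⟩
    · rintro x (h | h)
      · rw [h]; exact AddSubgroup.zero_mem _
      · exact hW1 _ h
    · intro x
      exact (hW σ hσ x (tors_nsmul P x)).1
    · intro x hx
      rcases (hW σ hσ x (tors_nsmul P x)).2 hx with h | h
      · exact Or.inl (Subtype.ext h)
      · exact Or.inr h
  rcases frey_ratprod P N hN hbot htop with h | h
  · left
    intro A hA σ hσ
    obtain ⟨V₀, -, h0, h1⟩ := key A hA σ hσ
    refine fix_of_filtration hat (actHom P σ) (fun x hx => hN σ x hx) V₀ (torsE1 P A) h0 h1 ?_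
    rintro x hx (h' | h')
    · exact h'
    · exact absurd (h A hA x hx) h'
  · right
    intro A hA σ hσ
    obtain ⟨V₀, h10, h0, h1⟩ := key A hA σ hσ
    refine cofix_of_filtration hco (actHom P σ) V₀ (torsE1 P A) h0 h1 h10 ?_
    intro x
    by_cases hx : x = 0
    · rw [hx]; exact ⟨fun _ => N.zero_mem, fun _ => AddSubgroup.zero_mem _⟩
    · constructor
      · rintro (h' | h')
        · exact absurd h' hx
        · exact (h A hA x hx).mp h'
      · intro h'
        exact Or.inr ((h A hA x hx).mpr h')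

/-- inertia away from `p` lies in `H₁ ∩ H₂` -/
theorem inertia_away (P : FreyPackage) (N : Submodule (ZMod P.p) (Tors P))
    (hN : IsGaloisStable ℚ N) (hat : IsAtom N) (hco : IsCoatom N) {ℓ : ℕ} (hℓ : ℓ.Prime)
    (hℓp : ℓ ≠ P.p) (A : ValuationSubring Kb) (hA : A.LiesOverPrime ℓ) :
    A.inertiaSubgroupIn ℚ ≤ fixGroup P N ∧ A.inertiaSubgroupIn ℚ ≤ cofixGroup P N hN := by
  haveI : Fact P.p.Prime := ⟨P.pp⟩
  by_cases h2 : ℓ = 2
  · subst h2
    have hu : ∀ σ ∈ A.inertiaSubgroupIn ℚ, ∀ x, actHom P σ (actHom P σ x - x) = actHom P σ x - x := by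
      intro σ hσ x
      apply Subtype.ext
      exact frey_unipotent_two P A hA σ hσ x (tors_nsmul P x)
    exact ⟨fun σ hσ => fix_of_unipotent hat (actHom P σ) (fun x hx => hN σ x hx) (hu σ hσ),
      fun σ hσ => cofix_of_unipotent hco (actHom P σ) (fun x hx => hN σ x hx) (hu σ hσ)⟩
  · have h := Fermat.Agent.S05.result P hℓ h2 hℓp A hA
    exact ⟨fun σ hσ x _ => h σ hσ x,
      fun σ hσ x => by
        have e : σ • x = x := h σ hσ x
        rw [e, sub_self]; exact N.zero_mem⟩

theorem result (P : FreyPackage) (hred : ¬ GaloisRepIsIrreducible (K := AlgebraicClosure ℚ) ℚ P.freyCurve P.p) : HasGaloisStableCofixedLine (K := AlgebraicClosure ℚ) ℚ P.freyCurve P.p := by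
  haveI : Fact P.p.Prime := ⟨P.pp⟩
  obtain ⟨Q₀, hQ₀, hpQ₀⟩ := frey_exists_torsion P
  have hnt : Nontrivial (Tors P) :=
    ⟨⟨⟨Q₀, (mem_tors_iff P _).mpr hpQ₀⟩, 0, fun h0 => hQ₀ (congrArg Subtype.val h0)⟩⟩
  obtain ⟨N, hN, hbot, htop⟩ : ∃ N : Submodule (ZMod P.p) (Tors P),
      IsGaloisStable ℚ N ∧ N ≠ ⊥ ∧ N ≠ ⊤ := by
    by_contra hcon
    push Not at hcon
    apply hred
    refine ⟨hnt, fun N hN => ?_⟩
    by_cases hb : N = ⊥
    · exact Or.inl hb
    · exact Or.inr (hcon N hN hb)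
  obtain ⟨hfin, hcard⟩ := frey_card_le P
  obtain ⟨hat, hco⟩ := isAtom_isCoatom_of_card_le hcard N hbot htop
  obtain ⟨F, hFfin, hF⟩ := exists_finite_level P hfin
  rcases inertia_p P N hN hbot htop hat hco with hp | hp
  · -- all inertia groups fix `N` pointwise: contradiction
    exfalso
    have htopH : fixGroup P N = ⊤ := by
      apply eq_top_of_inertia_le _ (fixGroup_normal P N hN) F hFfin
      · intro σ hσ x _
        exact hF σ hσ x
      · intro ℓ hℓ A hA
        by_cases hℓp : ℓ = P.p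
        · subst hℓp; exact hp A hA
        · exact (inertia_away P N hN hat hco hℓ hℓp A hA).1
    obtain ⟨t, htN, ht0⟩ := Submodule.exists_mem_ne_zero_of_ne_bot hbot
    obtain ⟨σ, hσ⟩ := frey_no_fixed P (t : Pt P) (fun h0 => ht0 (Subtype.ext h0)) (tors_nsmul P t)
    apply hσ
    have : σ ∈ fixGroup P N := by rw [htopH]; exact Subgroup.mem_top σ
    exact congrArg Subtype.val (this t htN)
  · have htopH : cofixGroup P N hN = ⊤ := by
      apply eq_top_of_inertia_le _ (cofixGroup_normal P N hN) F hFfin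
      · intro σ hσ x
        rw [hF σ hσ x, sub_self]; exact N.zero_mem
      · intro ℓ hℓ A hA
        by_cases hℓp : ℓ = P.p
        · subst hℓp; exact hp A hA
        · exact (inertia_away P N hN hat hco hℓ hℓp A hA).2
    refine ⟨N, hN, hbot, htop, fun σ x => ?_⟩
    have : σ ∈ cofixGroup P N hN := by rw [htopH]; exact Subgroup.mem_top σ
    exact this x

end Fermat.Agent.S13
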