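import Fermat.Statements.S14
import Fermat.Agent.S14.BridgeV
import Fermat.Agent.S14.BridgeMain

set_option autoImplicit false
open ExtCitation

namespace Fermat.Agent.S14

theorem result {p : ℕ} [Fact p.Prime] (h3 : 3 ≤ p) :
    ExtCitation.ExtVanishingCts p := by
  intro V _ _ _ _ C hadm
  have hcl : IsAlgClosure ℚ (AlgebraicClosure ℚ) := by
    have e : (DivisionRing.toRatAlgebra : Algebra ℚ (AlgebraicClosure ℚ)) =
      AlgebraicClosure.instAlgebra ℚ := Subsingleton.elim _ _
    rw! [e]
    infer_instance
  exact splits_of_bridge h3 V C hadm (fun D σ hσ => bridge_main h3 D σ hσ)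

end Fermat.Agent.S14
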