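import Fermat.Statements.S17
import Fermat.Agent.S17.FF.CurveGeom
import Fermat.Agent.S17.Loc.Curve
import Fermat.Agent.S17.Glob.Main
import Fermat.Agent.S17.WMW.Main
import Fermat.Agent.S17.Abs.Construct
import Fermat.Agent.S17.DIV.Export

set_option autoImplicit false
open ModularCurve AlgebraicCurve
open ModularCurve ModularCurve.JZero

namespace Fermat.Agent.S17

theorem result (N : ℕ) [NeZero N] (hN : N.Prime) (hN5 : 5 ≤ N) :
    AddGroup.FG ↥(FixedPoints.addSubgroup ((AlgebraicClosure ℚ) ≃ₐ[ℚ] (AlgebraicClosure ℚ)) (JZero N)) := by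
  obtain ⟨𝔸⟩ := Fermat.Agent.S17.nonempty_globalAbs
  exact (Fermat.Agent.S17.FF.modCurve N).fg_of_weak 𝔸 (Fermat.Agent.S17.FF.modCurve_geom N)
    (Fermat.Agent.S17.Loc.curveOf_estimates _ 𝔸)
    (Fermat.Agent.S17.WMW.weak_mordell_weil_of_div N (Fermat.Agent.S17.DIV.exists_two_nsmul_eq N))

end Fermat.Agent.S17
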