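import Fermat.Statements.S20
import Fermat.Agent.S20.Lower
import Fermat.Agent.S21.Upper
import Fermat.Agent.S20.OrbitCounts
import Fermat.Agent.S20.OrbitT

set_option autoImplicit false
open CuspForm

namespace Fermat.Agent.S20

theorem result (N : ℕ) [NeZero N] :
    (Module.finrank ℂ (CuspForm (CongruenceSubgroup.Gamma0 N) 2) : ℚ) = ModularCurve.genusFormula N := by
  have h1 := lower N
  have h2 := Fermat.Agent.S21.upper_nat N
  have h3 := card_cos N
  have h4 := orbCount_S N
  have h5 := orbCount_U N
  have h6 := orbCount_T N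
  have h7 : 2 * Module.finrank ℂ (CuspForm (CongruenceSubgroup.Gamma0 N) 2)
      + orbCount (Cos N) ModularGroup.S + orbCount (Cos N) Umat + orbCount (Cos N) ModularGroup.T
      = 2 + Nat.card (Cos N) := le_antisymm h2 h1
  rw [h3, h6] at h7
  unfold ModularCurve.genusFormula
  have e7 : (2 * (Module.finrank ℂ (CuspForm (CongruenceSubgroup.Gamma0 N) 2) : ℚ)
      + orbCount (Cos N) ModularGroup.S + orbCount (Cos N) Umat + ModularCurve.cuspCount N)
      = 2 + ModularCurve.dedekindPsi N := by
    exact_mod_cast h7
  have e4 : (2 * (orbCount (Cos N) ModularGroup.S : ℚ))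
      = ModularCurve.dedekindPsi N + ModularCurve.nuTwo N := by
    exact_mod_cast h4
  have e5 : (3 * (orbCount (Cos N) Umat : ℚ))
      = ModularCurve.dedekindPsi N + 2 * ModularCurve.nuThree N := by
    exact_mod_cast h5
  linarith

end Fermat.Agent.S20
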