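import Fermat.Statements.S24
import Fermat.Agent.S24.Final
import Fermat.Agent.S24.Genus
import Fermat.Agent.S24.Unif

set_option autoImplicit false
open ModularCurve

namespace Fermat.Agent.S24

open scoped MatrixGroups

theorem result (N : ℕ) [NeZero N]
    [AlgebraicCurve.HasCanonicalDivisor (K := AlgebraicClosure ℚ) (F := ↥(ModularCurve.modularFunctionFieldBar N))] :
    (AlgebraicCurve.genus (AlgebraicClosure ℚ) ↥(ModularCurve.modularFunctionFieldBar N) : ℚ)
      = ModularCurve.genusFormula N := by
  classical
  obtain ⟨U0⟩ := unifData_zero N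
  obtain ⟨U1⟩ := unifData_1728 N
  obtain ⟨Ui⟩ := unifData_infty N
  have key := genus_eq_of_unifData (K := Kbar) (F := FF N) (X := Cosets N) (jF N)
    (transcendental_jF N) (finrank_FF N) _ _ _ N U0 U1 Ui (unifData_generic N)
  obtain ⟨g, hg⟩ := exists_genus (X := Cosets N) (permOf N ModularGroup.S) (permOf N ModularGroup.T)
    (by
      intro x y
      obtain ⟨γ, rfl⟩ := MulAction.exists_smul_eq SL(2, ℤ) x y
      refine ⟨permOf N γ, ?_, rfl⟩
      have hγ : γ ∈ Subgroup.closure {ModularGroup.S, ModularGroup.T} := by
        rw [SpecialLinearGroup.SL2Z_generators]; trivial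
      have := Subgroup.mem_map_of_mem (MulAction.toPermHom SL(2, ℤ) (Cosets N)) hγ
      rw [MonoidHom.map_closure] at this
      simpa [Set.image_pair, permOf] using this)
  have hmul : permOf N ModularGroup.S * permOf N ModularGroup.T
      = permOf N (ModularGroup.S * ModularGroup.T) := by
    ext x; simp [permOf, mul_smul]
  rw [hmul] at hg
  have hgen : AlgebraicCurve.genus Kbar (FF N) = g := by
    rw [key, hg]
    omega
  rw [show AlgebraicCurve.genus (AlgebraicClosure ℚ) ↥(ModularCurve.modularFunctionFieldBar N) = g
    from hgen]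
  have h1 := card_cosets N
  have h2 := orbitCount_S N
  have h3 := orbitCount_ST N
  have h4 := orbitCount_T N
  unfold ModularCurve.genusFormula
  have h2' : (2 : ℚ) * orbitCount (permOf N ModularGroup.S) = Nat.card (Cosets N) + nuTwo N := by
    exact_mod_cast h2
  have h3' : (3 : ℚ) * orbitCount (permOf N (ModularGroup.S * ModularGroup.T))
      = Nat.card (Cosets N) + 2 * nuThree N := by exact_mod_cast h3
  have hg' : (Nat.card (Cosets N) : ℚ) - orbitCount (permOf N ModularGroup.S)
        - orbitCount (permOf N (ModularGroup.S * ModularGroup.T))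
        - orbitCount (permOf N ModularGroup.T) + 2 = 2 * g := by exact_mod_cast hg
  rw [← h1, ← h4]
  linarith

end Fermat.Agent.S24
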