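-- Statement S33 (row 32): ordinarity at `p ∥ N` of the Hecke Galois representation.
import Fermat.Statements.S33
import Fermat.Agent.S33.Wire.Main
import Fermat.Agent.S33.ND.Main
import Fermat.Agent.S33.SM.Main
import Fermat.Agent.LP.Nod.BrMain
import Fermat.Agent.GS.Inst.Out

set_option autoImplicit false
variable {p : ℕ} {N : ℕ} [NeZero N] {S : Finset ℕ}
  {𝒪 : Type} [CommRing 𝒪] [IsDomain 𝒪] [IsDiscreteValuationRing 𝒪]
  [IsAdicComplete (IsLocalRing.maximalIdeal 𝒪) 𝒪]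
  {θ : CuspForm.heckeAlgebra N 2 (↑S : Set ℕ) →+* IsLocalRing.ResidueField 𝒪}
  {T : Type} [CommRing T] [IsLocalRing T] [IsNoetherianRing T]
  [IsAdicComplete (IsLocalRing.maximalIdeal T) T] [Algebra 𝒪 T] [IsLocalHom (algebraMap 𝒪 T)]
  [Module.Finite 𝒪 T] [Module.Free 𝒪 T]
open CuspForm CuspForm.HeckeGaloisRepDatum

namespace Fermat.Agent.S33

/-- the geometric input at every place over `p`. -/
theorem geoInput_all (p M0 : ℕ) [NeZero p] (hp : p.Prime) (hp2 : p ≠ 2) (hM0 : M0 ≠ 0)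
    (hpM : ¬ p ∣ M0) (A : ValuationSubring Fermat.Agent.GR.Qbar) (hA : A.LiesOverPrime p) :
    GeoInput p M0 A :=
  ND.geoInput hp hp2 hM0 hpM hA (LP.nodalInertiaP GS.Inst.instOut p M0 hM0 hp hp2 hpM A hA)
    (SM.goodOrd_main hp hp2 hM0 hpM hA) (SM.ssCrux_main hp hp2 hM0 hpM hA)

theorem result
    [Finite (IsLocalRing.ResidueField 𝒪)] [CharZero 𝒪]
    (hp : p.Prime) (hp2 : p ≠ 2) (hp𝒪 : (p : 𝒪) ∈ IsLocalRing.maximalIdeal 𝒪) (hN : p ∣ N ∧ ¬ p ^ 2 ∣ N)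
    (hNS : ∀ q : ℕ, q.Prime → q ∣ N → q ∈ S)
    (H : CuspForm.HeckeGaloisRepDatum N (↑S : Set ℕ) 𝒪 θ T)
    (hres : (GaloisRepAdic.ofResidualGaloisRep H.ρ.residual).IsOrdinaryAt p) :
    H.ρ.IsOrdinaryAt p :=
  S33_of_geoInput geoInput_all hp hp2 hp𝒪 hN hNS H hres

end Fermat.Agent.S33
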