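import Fermat.Statements.S41
import Fermat.Agent.S41.K.Main
import Fermat.Agent.S41.W.Final
import Fermat.Agent.S41.W.Occ
import Fermat.Agent.S41.IH.Main
import Fermat.Agent.S41.E.Main

set_option autoImplicit false
open WeierstrassCurve WeierstrassCurve.Affine WeierstrassCurve.Affine.Point
open scoped CongruenceSubgroup
open WeierstrassCurve

namespace Fermat.Agent.S41

open Fermat.Agent.GR.B in
/-- Ihara replacement + Theorem E: the map `(a^*, b^*)` is injective on the eigenspace. -/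
theorem injective_on_eigenspace
    (E : WeierstrassCurve ℚ) [E.IsElliptic] {W : WeierstrassCurve ℤ} (hW : W.IsIntegralModelOf E)
    {p N q : ℕ} [NeZero N] [Fact p.Prime] [Fact q.Prime] (hp2 : p ≠ 2) (hqN : ¬ q ∣ N)
    (hqp : q ≠ p) (hirr : GaloisRepIsIrreducible (K := AlgebraicClosure ℚ) ℚ E p)
    (z₁ z₂ : Additive (CongruenceSubgroup.Gamma0 N) →+ ZMod p) (h₁ : Kills z₁) (h₂ : Kills z₂)
    (hker : InKer q z₁ z₂)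
    (hT₁ : ∀ (ℓ : ℕ) [Fact ℓ.Prime] (hℓN : ¬ ℓ ∣ N), ¬ ℓ ∣ N * q →
      (W.IsGoodPrimeFor ℓ ∧ ℓ ≠ p) →
        (repsT ℓ hℓN).op (ZMod p) z₁ = ((W.apOfModel ℓ : ℤ) : ZMod p) • z₁)
    (hT₂ : ∀ (ℓ : ℕ) [Fact ℓ.Prime] (hℓN : ¬ ℓ ∣ N), ¬ ℓ ∣ N * q →
      (W.IsGoodPrimeFor ℓ ∧ ℓ ≠ p) →
        (repsT ℓ hℓN).op (ZMod p) z₂ = ((W.apOfModel ℓ : ℤ) : ZMod p) • z₂) :
    z₁ = 0 ∧ z₂ = 0 := by
  have hp : p.Prime := Fact.out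
  have hq : q.Prime := Fact.out
  obtain ⟨c₀, m, hc₀, hm, hI⟩ := IH.ihara N p q hp2 hqN
  obtain ⟨ℓ, hℓ, hℓS, hgood, hℓ1, hord, hne⟩ :=
    Fermat.Agent.S41.E.exists_prime_ap_ne_two E hW hp hp2 hq hqp hirr c₀ m hc₀ hm
      ((N * q).primeFactors ∪ {p})
  have : Fact ℓ.Prime := ⟨hℓ⟩
  have hNq : N * q ≠ 0 := Nat.mul_ne_zero (NeZero.ne N) hq.ne_zero
  have hℓNq : ¬ ℓ ∣ N * q := by
    intro h
    exact hℓS (Finset.mem_union_left _ (Nat.mem_primeFactors.mpr ⟨hℓ, h, hNq⟩))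
  have hℓp : ℓ ≠ p := by
    rintro rfl
    exact hℓS (Finset.mem_union_right _ (Finset.mem_singleton_self _))
  have hℓN : ¬ ℓ ∣ N := fun h => hℓNq (Dvd.dvd.mul_right h q)
  have hℓq : ℓ ≠ q := by
    rintro rfl
    exact hℓNq (Dvd.intro_left N rfl)
  obtain ⟨e₁, e₂⟩ := hI ℓ hℓN hℓq hℓ1 hord z₁ z₂ h₁ h₂ hker
  have key : ∀ z : Additive (CongruenceSubgroup.Gamma0 N) →+ ZMod p,
      (repsT ℓ hℓN).op (ZMod p) z = 2 • z →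
      (repsT ℓ hℓN).op (ZMod p) z = ((W.apOfModel ℓ : ℤ) : ZMod p) • z → z = 0 := by
    intro z ha hb
    have h3 : (((W.apOfModel ℓ : ℤ) : ZMod p) - 2) • z = 0 := by
      rw [sub_smul, ← hb, ha]
      refine AddMonoidHom.ext fun γ => ?_
      simp [two_mul]
    rcases smul_eq_zero.mp h3 with h | h
    · exact absurd (sub_eq_zero.mp h) hne
    · exact h
  exact ⟨key z₁ e₁ (hT₁ ℓ hℓN hℓNq ⟨hgood, hℓp⟩), key z₂ e₂ (hT₂ ℓ hℓN hℓNq ⟨hgood, hℓp⟩)⟩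

theorem result
    (E : WeierstrassCurve ℚ) [E.IsElliptic] {W : WeierstrassCurve ℤ} (hW : W.IsIntegralModelOf E)
    {p N q' : ℕ} (hp : p.Prime) (hp2 : p ≠ 2) (hN : 0 < N) (hq' : q'.Prime) (hq'N : ¬ q' ∣ N) (hq'p : q' ≠ p)
    (hirr : GaloisRepIsIrreducible (K := AlgebraicClosure ℚ) ℚ E p)
    (f : CuspForm (CongruenceSubgroup.Gamma0 N) 2) (𝔪 : Ideal (integralClosure ℤ ℂ))
    (hf : f.IsNormalizedEigenform) (hmax : 𝔪.IsMaximal) (hpm : (p : integralClosure ℤ ℂ) ∈ 𝔪)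
    (hcong : ∀ ℓ : ℕ, ℓ.Prime → W.IsGoodPrimeFor ℓ → ¬ ℓ ∣ N → ℓ ≠ p →
      ∃ a : integralClosure ℤ ℂ, (a : ℂ) = ModularFormClass.qCoeff f ℓ ∧
        a - ((W.apOfModel ℓ : ℤ) : integralClosure ℤ ℂ) ∈ 𝔪)
    (hLR : ∃ a : integralClosure ℤ ℂ, (a : ℂ) = ModularFormClass.qCoeff f q' ∧
      a ^ 2 - ((q' : integralClosure ℤ ℂ) + 1) ^ 2 ∈ 𝔪) :
    ∃ (g : CuspForm (CongruenceSubgroup.Gamma0 (N * q')) 2) (𝔪' : Ideal (integralClosure ℤ ℂ)),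
      g.IsNormalizedEigenform ∧ 𝔪'.IsMaximal ∧ (p : integralClosure ℤ ℂ) ∈ 𝔪' ∧
      (∀ ℓ : ℕ, ℓ.Prime → W.IsGoodPrimeFor ℓ → ¬ ℓ ∣ N * q' → ℓ ≠ p →
        ∃ a : integralClosure ℤ ℂ, (a : ℂ) = ModularFormClass.qCoeff g ℓ ∧
          a - ((W.apOfModel ℓ : ℤ) : integralClosure ℤ ℂ) ∈ 𝔪') ∧
      g.IsNewAt q' := by
  have : NeZero N := ⟨hN.ne'⟩
  have : Fact p.Prime := ⟨hp⟩
  have : Fact q'.Prime := ⟨hq'⟩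
  obtain ⟨ε, φ, hε, hφ, hφ0, hφT, hφq⟩ :=
    Fermat.Agent.S41.W.exists_mod_p_eigenvector N p q' hq'N f hf 𝔪 hmax hpm (fun ℓ => W.apOfModel ℓ)
      (fun ℓ => W.IsGoodPrimeFor ℓ ∧ ℓ ≠ p)
      (fun ℓ hℓ hℓN hg => hcong ℓ hℓ hg.1 hℓN hg.2) hLR
  obtain ⟨x, hx, hxT, hxU⟩ :=
    K.exists_lattice_vector N p q' hp2 hq'N (fun ℓ => W.apOfModel ℓ)
      (fun ℓ => W.IsGoodPrimeFor ℓ ∧ ℓ ≠ p)
      (fun z₁ z₂ h₁ h₂ hker hT₁ hT₂ =>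
        injective_on_eigenspace E hW hp2 hq'N hq'p hirr z₁ z₂ h₁ h₂ hker hT₁ hT₂)
      ε hε φ hφ hφ0 hφT hφq
  obtain ⟨g, 𝔪', hg, hmax', hp', hcong', hnew⟩ :=
    Fermat.Agent.S41.W.exists_newform (N * q') p q' hq' (fun ℓ => W.apOfModel ℓ)
      (fun ℓ => W.IsGoodPrimeFor ℓ ∧ ℓ ≠ p) x hx hxT hxU
  exact ⟨g, 𝔪', hg, hmax', hp', fun ℓ hℓ hgood hℓN hℓp => hcong' ℓ hℓ hℓN ⟨hgood, hℓp⟩, hnew⟩

end Fermat.Agent.S41
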