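import Fermat.Statements.S42
import Fermat.Agent.S42.Wiring
import Fermat.Agent.GR.H.Final
import Fermat.Agent.GR.D.Top.Main
import Fermat.Agent.GR.I.CharTheoryMk

set_option autoImplicit false
open FreyPackage

namespace Fermat.Agent.S42

theorem result (P : FreyPackage) :
    ∀ M : ℕ, 0 < M → P.EigenformResidualAttachmentAt M :=
  Fermat.Agent.S42.attachment_of_S29
    (Fermat.Agent.GR.H.S29_of_inputs Fermat.Agent.GR.D.Top.modelExists
      (fun N _ => Fermat.Agent.GR.I.charTheory N)) P

end Fermat.Agent.S42
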