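import Fermat.Statements.S49
import Fermat.Agent.S49.ThreeIdeal
import Fermat.Agent.S49.Lifting

set_option autoImplicit false
open CuspForm EisensteinWeightOne CongruenceSubgroup ModularFormClass
open FLT FLT.AbstractIntegralStructure

namespace Fermat.Agent.S49

theorem threeIdeal_isMaximal {N : ℕ} [NeZero N] {f : CuspForm (Gamma0 N) 2} {af : ℕ → ℤ}
    (haf : ∀ n, qCoeff f n = (af n : ℂ)) (h1 : ¬ (3 : ℤ) ∣ af 1)
    (hdec : ∀ t : CuspForm.heckeAlgebra N 2 ∅,
      ∃ m : ℤ, t - (m : CuspForm.heckeAlgebra N 2 ∅) ∈ threeIdeal f) :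
    (threeIdeal f).IsMaximal := by
  rw [Ideal.isMaximal_iff]
  constructor
  · intro h
    have : ((1 : ℤ) : CuspForm.heckeAlgebra N 2 ∅) ∈ threeIdeal f := by
      rw [Int.cast_one]; exact h
    have := three_dvd_of_intCast_mem haf h1 this
    omega
  · intro J x hJ hx hxJ
    obtain ⟨m, hm⟩ := hdec x
    have hmJ : (m : CuspForm.heckeAlgebra N 2 ∅) ∈ J := by
      have := J.sub_mem hxJ (hJ hm)
      simpa using this
    have h3J : ((3 : ℤ) : CuspForm.heckeAlgebra N 2 ∅) ∈ J := hJ (three_mem_threeIdeal haf)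
    have h3m : ¬ (3 : ℤ) ∣ m := by
      rintro ⟨k, rfl⟩
      apply hx
      have h3 : ((3 * k : ℤ) : CuspForm.heckeAlgebra N 2 ∅) ∈ threeIdeal f := by
        rw [Int.cast_mul]
        exact (threeIdeal f).mul_mem_right _ (three_mem_threeIdeal haf)
      have := (threeIdeal f).add_mem hm h3
      simpa using this
    have hcop : IsCoprime (3 : ℤ) m := (Int.prime_three.coprime_iff_not_dvd).2 h3m
    obtain ⟨u, v, huv⟩ := hcop
    have : ((u * 3 + v * m : ℤ) : CuspForm.heckeAlgebra N 2 ∅) ∈ J := by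
      rw [Int.cast_add, Int.cast_mul, Int.cast_mul]
      exact J.add_mem (J.mul_mem_left _ h3J) (J.mul_mem_left _ hmJ)
    rw [huv, Int.cast_one] at this
    exact this

theorem result
    {N : ℕ} [NeZero N] (h : CuspForm.HasIntegralBasis N) {a : ℕ → ℤ}
    (heig : FormalHecke.IsEigensystem
      (fun ℓ => if ℓ ∣ N then 0 else ((chiNegThree ℓ : ℤ) : ℤ)) a)
    (hreal : CuspForm.IsLatticeRealized N a) :
    ∃ (f : CuspForm (Gamma0 N) 2) (_ : f.IsNormalizedEigenform)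
      (𝔪' : Ideal (integralClosure ℤ ℂ)), 𝔪'.IsMaximal ∧
      ((3 : ℕ) : integralClosure ℤ ℂ) ∈ 𝔪' ∧
      ∀ (ℓ : ℕ) (_ : ℓ.Prime) (_ : ¬ ℓ ∣ N),
        ∃ c : integralClosure ℤ ℂ, (c : ℂ) = ModularFormClass.qCoeff f ℓ ∧
          c - (a ℓ : integralClosure ℤ ℂ) ∈ 𝔪' := by
  obtain ⟨f, af, haf, h1, hTf, hUf⟩ := modThree_data heig hreal
  have hT : ∀ (ℓ : ℕ) (hℓ : ℓ.Prime) (hℓN : ¬ ℓ ∣ N),
      (CuspForm.heckeAlgebra.T hℓ hℓN (Set.notMem_empty ℓ) - (a ℓ : CuspForm.heckeAlgebra N 2 ∅))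
        ∈ threeIdeal f := by
    intro ℓ hℓ hℓN
    apply mem_threeIdeal_of_qCoeff
    intro n
    obtain ⟨m, hm⟩ := hTf ℓ hℓ hℓN n
    refine ⟨m, ?_⟩
    rw [← hm, Subalgebra.coe_sub, LinearMap.sub_apply, intCast_apply]
    rfl
  have hU : ∀ (q : ℕ) (hq : q.Prime) (hqN : q ∣ N),
      (CuspForm.heckeAlgebra.U hq hqN (Set.notMem_empty q) - (a q : CuspForm.heckeAlgebra N 2 ∅))
        ∈ threeIdeal f := by
    intro q hq hqN
    apply mem_threeIdeal_of_qCoeff
    intro n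
    obtain ⟨m, hm⟩ := hUf q hq hqN n
    refine ⟨m, ?_⟩
    rw [← hm, Subalgebra.coe_sub, LinearMap.sub_apply, intCast_apply]
    rfl
  have hmax : (threeIdeal f).IsMaximal :=
    threeIdeal_isMaximal haf h1 (exists_int_sub_mem hT hU)
  have hprime : (threeIdeal f).IsPrime := hmax.isPrime
  have hfd : FiniteDimensional ℂ (CuspForm (Gamma0 N) 2) := finiteDimensional_of_basis h
  obtain ⟨g, hg0, χ, hχ, hker⟩ := exists_eigenvector_of_prime
    (K := ℂ) (V := CuspForm (Gamma0 N) 2)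
    ((CuspForm.heckeAlgebra N 2 ∅).val.toRingHom) (threeIdeal f)
    (fun s hs => by
      have : s = 0 := Subtype.ext hs
      rw [this]; exact (threeIdeal f).zero_mem)
  have hχ' : ∀ t : CuspForm.heckeAlgebra N 2 ∅,
      (t : Module.End ℂ (CuspForm (Gamma0 N) 2)) g = χ t • g := hχ
  have hinj : ∀ x y : ℂ, x • g = y • g → x = y := fun x y hxy =>
    smul_left_injective ℂ hg0 hxy
  let χh : CuspForm.heckeAlgebra N 2 ∅ →+* ℂ :=
    { toFun := χ
      map_one' := hinj _ _ (by rw [← hχ', one_smul]; rfl)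
      map_mul' := fun s t => hinj _ _ (by
        rw [← hχ', Subalgebra.coe_mul, Module.End.mul_apply, hχ', map_smul, hχ', smul_smul,
          mul_comm])
      map_zero' := hinj _ _ (by rw [← hχ', zero_smul]; rfl)
      map_add' := fun s t => hinj _ _ (by
        rw [← hχ', Subalgebra.coe_add, LinearMap.add_apply, hχ', hχ', add_smul]) }
  have hint : ∀ t, χh t ∈ integralClosure ℤ ℂ := fun t =>
    map_isIntegral_int χh (isIntegral_hecke h ∅ t)
  let χ' : CuspForm.heckeAlgebra N 2 ∅ →+* integralClosure ℤ ℂ :=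
    χh.codRestrict (integralClosure ℤ ℂ) hint
  let lam : ℕ → ℂ := fun ℓ =>
    if hℓ : ℓ.Prime then
      (if hN : ℓ ∣ N then χ (CuspForm.heckeAlgebra.U hℓ hN (Set.notMem_empty ℓ))
        else χ (CuspForm.heckeAlgebra.T hℓ hN (Set.notMem_empty ℓ)))
    else 0
  obtain ⟨f', hf', hlam⟩ := exists_normalized g hg0 lam
    (fun ℓ hℓ hℓN => by
      simp only [lam, dif_pos hℓ, dif_neg hℓN]
      exact hχ' (CuspForm.heckeAlgebra.T hℓ hℓN (Set.notMem_empty ℓ)))
    (fun q hq hqN => by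
      simp only [lam, dif_pos hq, dif_pos hqN]
      exact hχ' (CuspForm.heckeAlgebra.U hq hqN (Set.notMem_empty q)))
  letI : Algebra (CuspForm.heckeAlgebra N 2 ∅) (integralClosure ℤ ℂ) := χ'.toAlgebra
  haveI : IsScalarTower ℤ (CuspForm.heckeAlgebra N 2 ∅) (integralClosure ℤ ℂ) :=
    IsScalarTower.of_algebraMap_eq' (Subsingleton.elim _ _)
  haveI : Algebra.IsIntegral (CuspForm.heckeAlgebra N 2 ∅) (integralClosure ℤ ℂ) :=
    ⟨fun x => IsIntegral.tower_top (R := ℤ) (Algebra.IsIntegral.isIntegral x)⟩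
  obtain ⟨Q, hQmax, hQ⟩ := Ideal.exists_ideal_over_maximal_of_isIntegral
    (S := integralClosure ℤ ℂ) (threeIdeal f) (by
      intro t ht
      apply hker
      have : χ' t = 0 := ht
      exact congrArg Subtype.val this)
  have hmemQ : ∀ t ∈ threeIdeal f, χ' t ∈ Q := by
    intro t ht
    rw [← hQ] at ht
    exact ht
  refine ⟨f', hf', Q, hQmax, ?_, ?_⟩
  · have := hmemQ _ (three_mem_threeIdeal haf)
    rw [map_intCast] at this
    exact_mod_cast this
  · intro ℓ hℓ hℓN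
    refine ⟨χ' (CuspForm.heckeAlgebra.T hℓ hℓN (Set.notMem_empty ℓ)), ?_, ?_⟩
    · rw [hlam ℓ hℓ]
      simp only [lam, dif_pos hℓ, dif_neg hℓN]
      rfl
    · have := hmemQ _ (hT ℓ hℓ hℓN)
      rw [map_sub, map_intCast] at this
      exact this

end Fermat.Agent.S49
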