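import Fermat.Statements.S51
import Fermat.Agent.S51.Torsion
import Fermat.Agent.S51.Algebra
import Fermat.Agent.S51.MW

set_option autoImplicit false
open WeierstrassCurve WeierstrassCurve.Affine WeierstrassCurve.Affine.Point
open CuspForm ModularFormClass UpperHalfPlane
open WeierstrassCurve

namespace Fermat.Agent.S51

theorem result (W : WeierstrassCurve ℤ) (hΔ : W.Δ ≠ 0) (hW : W.IsSemistableModel) : W.ModRepIsIrreducible 3 ∨ W.ModRepIsIrreducible 5 := by
  by_contra hcon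
  rw [not_or] at hcon
  obtain ⟨h3, h5⟩ := hcon
  obtain ⟨x0, hx0⟩ := exists_of_not_irr3 W hΔ h3
  obtain ⟨s, m, hd, R1, R2, -⟩ := exists_of_not_irr5 W hΔ h5
  refine core_false_b desc hΔ (hW 5 (by norm_num)) (b2 := (W.b₂ : ℚ)) (b4 := (W.b₄ : ℚ))
    (b6 := (W.b₆ : ℚ)) (b8 := (W.b₈ : ℚ)) (x0 := x0) (s := s) (m := m) ?_ ?_ ?_ hd ?_ ?_ hx0
  · exact_mod_cast W.b_relation
  · rw [WeierstrassCurve.c₄]; push_cast; ring
  · rw [WeierstrassCurve.Δ]; push_cast; ring
  · linear_combination -R1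
  · linear_combination R2

end Fermat.Agent.S51
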