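import Fermat.Statements.S52
import Fermat.Agent.S52.I.GlobalB
import Fermat.Agent.S52.I.SemiB
import Fermat.Agent.S52.I.SemiC
import Fermat.Agent.S52.I.ChooseD
import Fermat.Agent.S52.Model

set_option autoImplicit false
open WeierstrassCurve WeierstrassCurve.Affine WeierstrassCurve.Affine.Point
open CuspForm ModularFormClass UpperHalfPlane
open WeierstrassCurve

namespace Fermat.Agent.S52

theorem result (W : WeierstrassCurve ℤ) (hΔ : W.Δ ≠ 0) (hW : W.IsSemistableModel) (h5 : W.ModRepIsIrreducible 5) : ∃ W' : WeierstrassCurve ℤ, W'.Δ ≠ 0 ∧ W'.IsSemistableModel ∧ W'.ModRepIsIrreducible 3 ∧ ∀ ℓ : ℕ, ℓ.Prime → W.IsGoodPrimeFor ℓ → W'.IsGoodPrimeFor ℓ → ℓ ≠ 5 → (5 : ℤ) ∣ (W'.apOfModel ℓ - W.apOfModel ℓ) := by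
  obtain ⟨t, r₁, r₂, hr₁, hr₂, h51, h52, hMt, hM1, hM2, ⟨hm1, h21, h31⟩, ⟨hm2, h22, h32⟩, ⟨hd1, hq1⟩,
    ⟨hd2, hq2⟩, hs1, hs2⟩ := I.exists_param W hΔ hW (1728 * (30 * W.Δ))
      (mul_ne_zero (by norm_num) (mul_ne_zero (by norm_num) hΔ))
  obtain ⟨W', e1, e2, e3, e4, e6, hc4, hc6, hD⟩ := exists_model W hΔ (30 * W.Δ) t hMt
  have hd0 : famD W.c₄ W.c₆ W.Δ t ≠ 0 := by
    intro h
    exact hq1 (h ▸ dvd_zero _)
  have hΔ' : W'.Δ ≠ 0 := by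
    rw [hD]
    exact mul_ne_zero hΔ (pow_ne_zero _ hd0)
  have hss : W'.IsSemistableModel :=
    I.semistable_of_model W W' hΔ hW (Dvd.dvd.trans (Dvd.intro_left _ rfl) hMt) hc4 hD
  have hΔ1 : ¬ (r₁ : ℤ) ∣ W.Δ := fun h => hM1 (Dvd.dvd.mul_left (Dvd.dvd.mul_left h _) _)
  have hΔ2 : ¬ (r₂ : ℤ) ∣ W.Δ := fun h => hM2 (Dvd.dvd.mul_left (Dvd.dvd.mul_left h _) _)
  refine ⟨W', hΔ', hss, ?_, ?_⟩
  · haveI := Fact.mk hr₁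
    haveI := Fact.mk hr₂
    refine I.irr3_of_primes W' hΔ' hss r₁ r₂ h51 h52 hm1 h21 h31 hm2 h22 h32 ?_ ?_ ?_ ?_ ?_ ?_
    · rw [hD]; exact Dvd.dvd.mul_left (Dvd.dvd.pow hd1 (by norm_num)) _
    · rw [hD]; exact Dvd.dvd.mul_left (Dvd.dvd.pow hd2 (by norm_num)) _
    · rw [hD]; exact I.not_three_dvd_padicValInt hr₁ hΔ1 hd1 hq1
    · rw [hD]; exact I.not_three_dvd_padicValInt hr₂ hΔ2 hd2 hq2
    · rw [hc6]; exact hs1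
    · rw [hc6]; exact hs2
  · intro ℓ hℓ h1 h2 hne
    exact I.five_dvd_ap_sub W W' e1 e2 e3
      (Dvd.dvd.trans ⟨5 * W.Δ, by ring⟩ e4) (Dvd.dvd.trans ⟨5 * W.Δ, by ring⟩ e6) hc4 hc6 hD ℓ hℓ h1 h2 hne

end Fermat.Agent.S52
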