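import Fermat.Statements.S53
import Fermat.Agent.S53.Abstract
import Fermat.Agent.S53.Setup
import Fermat.Agent.S53.Functor

set_option autoImplicit false
set_option autoImplicit false
open GaloisRep

namespace Fermat.Agent.S53

open IsLocalRing in
theorem result
    (𝒪 : Type) [CommRing 𝒪] [IsDomain 𝒪] [IsDiscreteValuationRing 𝒪]
    [IsAdicComplete (IsLocalRing.maximalIdeal 𝒪) 𝒪] [Finite (IsLocalRing.ResidueField 𝒪)]
    (ρbar : ResidualGaloisRep (IsLocalRing.ResidueField 𝒪))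
    (𝒟 : ∀ ⦃A : Type⦄ [CommRing A] [IsLocalRing A] [Algebra 𝒪 A], GaloisRepAdic A → Prop)
    (habs : ρbar.IsAbsolutelyIrreducible)
    (h𝒟 : GaloisRep.IsDeformationCondition 𝒪 𝒟)
    (hbar : 𝒟 (GaloisRepAdic.ofResidualGaloisRep ρbar))
    (hfin : GaloisRep.TangentFinite 𝒪 ρbar 𝒟) :
    Nonempty (GaloisRep.DeformationRingData 𝒪 ρbar 𝒟) := by
  obtain ⟨D, hD⟩ := exists_rigidDatum ρbar habs
  obtain ⟨R, _, _, _, _, _, _, hsurj, xu, hxu, huniv⟩ :=
    proRepresentable (defFunctor D 𝒟) (defFunctor_isProRep D h𝒟)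
      (defFunctor_residue_nonempty D h𝒟 ρbar hD hbar) (defFunctor_residue_unique D)
      (defFunctor_dual_finite D ρbar hD hfin)
  obtain ⟨hm, hl, hn⟩ := matConditions_of_forall_test D hsurj xu
    (fun B _ _ _ hB q _ => by
      obtain ⟨h1, h2, h3, -⟩ := hxu B hB q
      exact ⟨h1, h2, h3⟩)
  have hψ : ∀ (A : Type) [CommRing A] [IsLocalRing A] [Algebra 𝒪 A] [IsLocalHom (algebraMap 𝒪 A)]
      (o : 𝒪), ResidueField.map (algebraMap 𝒪 A) (residue 𝒪 o) = residue A (algebraMap 𝒪 A o) :=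
    fun A _ _ _ _ o => rfl
  refine ⟨{ R := R
            residue_surjective := hsurj
            absIrr := habs
            ρ := ofMat xu hm
            isOfType := ?_
            residual_isEquiv := residual_ofMat_isEquiv D ρbar hD _ (hψ R) hm hl
            universal := ?_ }⟩
  · rw [h𝒟.iff_forall_surjective inferInstance hsurj]
    intro B _ _ _ hB q hq _
    obtain ⟨h1, -, -, h4⟩ := hxu B hB q
    exact h𝒟.of_isEquiv hB
      (isEquiv_symm (ofMat_baseChangeAlong_isEquiv (q : R →+* B) hq xu hm h1)) h4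
  · intro A _ _ _ _ _ _ hA ρA hρA hres
    obtain ⟨x, hx, lx, ex⟩ := exists_matLift D ρbar hD _ (hψ A) ρA hres
    obtain ⟨y, hy, ly, ny, ey⟩ := exists_normalized D hx lx
    have hyA : (ofMat y hy).IsEquiv ρA := isEquiv_trans ey ex
    have h𝒟y : 𝒟 (ofMat y hy) := condition_of_isEquiv h𝒟 hA (isEquiv_symm hyA) hρA
    have hFy : ∀ (B : Type) [CommRing B] [IsLocalRing B] [Algebra 𝒪 B],
        IsArtinianTestAlgebra 𝒪 B → ∀ q : A →ₐ[𝒪] B, Function.Surjective q →
          defFunctor D 𝒟 B (q ∘ y) := by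
      intro B _ _ _ hB q hq
      haveI := hB.isLocalHom
      have hql : IsLocalHom (q : A →+* B) := isLocalHom_of_algHom hA hB.residue_surjective q
      exact ⟨hy.comp (q : A →+* B) hql, ly.comp q hql, ny.comp q,
        h𝒟.of_isEquiv hB (ofMat_baseChangeAlong_isEquiv (q : A →+* B) hql y hy _)
          ((h𝒟.iff_forall_surjective inferInstance hA (ofMat y hy)).mp h𝒟y hB q hql hq)⟩
    obtain ⟨φ, hφ, hφu⟩ := huniv A hA y hFy
    have hloc : ∀ φ' : R →ₐ[𝒪] A, IsLocalHom (φ' : R →+* A) :=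
      fun φ' => isLocalHom_of_algHom hsurj hA φ'
    refine ⟨φ, ⟨hloc φ, ?_⟩, ?_⟩
    · subst hφ
      exact isEquiv_trans (ofMat_baseChangeAlong_isEquiv (φ : R →+* A) (hloc φ) xu hm hy) hyA
    · rintro φ' ⟨hφ', e'⟩
      apply hφu
      exact eq_of_isEquiv D (hm.comp (φ' : R →+* A) hφ') hy (hl.comp φ' hφ') ly (hn.comp φ') ny
        (isEquiv_trans (isEquiv_symm
          (ofMat_baseChangeAlong_isEquiv (φ' : R →+* A) hφ' xu hm (hm.comp (φ' : R →+* A) hφ')))
          (isEquiv_trans e' (isEquiv_symm hyA)))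

end Fermat.Agent.S53
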