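import Fermat.Statements.S57
import Fermat.Agent.S57.Wiring

set_option autoImplicit false
open Algebra Algebra.PatchingLevel

namespace Fermat.Agent.S57

theorem result
    {𝒪 : Type} [CommRing 𝒪] [IsDomain 𝒪] [IsDiscreteValuationRing 𝒪]
    {r : ℕ} {R : Type} [CommRing R] [Algebra 𝒪 R]
    {M : Type} [AddCommGroup M] [Module R M] [Nontrivial M]
    (L : Algebra.PatchingLevel 𝒪 r R M ⊥) :
    Module.Free R M ∧ Module.annihilator R M = ⊥ ∧
      RingHom.ker L.ψ = Ideal.span (Set.range fun i : Fin r => L.φ (MvPowerSeries.X i)) := by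
  have hfree := free_N L
  have hfin := finite_N L
  have hNnt : Nontrivial L.N := by
    obtain ⟨m, hm⟩ := exists_ne (0 : M)
    obtain ⟨x, rfl⟩ := L.π_surjective m
    exact ⟨x, 0, fun h => hm (by rw [h, map_zero])⟩
  let B := Module.Free.chooseBasis (MvPowerSeries (Fin r) 𝒪) L.N
  set 𝔞 := Ideal.span (Set.range fun i : Fin r => L.φ (MvPowerSeries.X i)) with h𝔞
  -- coordinates of elements of `𝔞 • ⊤` lie in `𝔞`
  have hcoord : ∀ x ∈ 𝔞 • (⊤ : Submodule (MvPowerSeries (Fin r) 𝒪) L.N), ∀ i, B.repr x i ∈ 𝔞 := by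
    intro x hx i
    have h1 : B.coord i x ∈ Submodule.map (B.coord i) (𝔞 • ⊤) := Submodule.mem_map_of_mem hx
    rw [Submodule.map_smul''] at h1
    have h2 : 𝔞 • Submodule.map (B.coord i) ⊤ ≤ 𝔞 := by
      rw [Submodule.smul_le]
      intro a ha n _
      exact Ideal.mul_mem_right _ _ ha
    exact h2 h1
  have hle : 𝔞 ≤ RingHom.ker L.ψ := by
    rw [h𝔞, Ideal.span_le]
    rintro _ ⟨i, rfl⟩
    exact L.ψ_φ_X i
  -- key: if `ψ f` kills `M` then `f ∈ 𝔞`
  have hkey : ∀ f, (∀ m : M, L.ψ f • m = 0) → f ∈ 𝔞 := by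
    intro f hf
    obtain ⟨i₀⟩ : Nonempty (Module.Free.ChooseBasisIndex (MvPowerSeries (Fin r) 𝒪) L.N) :=
      B.index_nonempty
    have h1 : f • B i₀ ∈ 𝔞 • (⊤ : Submodule (MvPowerSeries (Fin r) 𝒪) L.N) := by
      rw [← L.ker_π, L.π_smul, hf]
    have h2 := hcoord _ h1 i₀
    simpa using h2
  have hker : RingHom.ker L.ψ = 𝔞 := by
    refine le_antisymm (fun f hf => hkey f fun m => ?_) hle
    rw [RingHom.mem_ker.mp hf, zero_smul]
  refine ⟨?_, ?_, hker⟩
  · -- the images of the basis vectors form a basis of `M` over `R`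
    have hsum : ∀ a : Module.Free.ChooseBasisIndex (MvPowerSeries (Fin r) 𝒪) L.N →
        MvPowerSeries (Fin r) 𝒪, L.π (∑ i, a i • B i) = ∑ i, L.ψ (a i) • L.π (B i) := by
      intro a
      rw [map_sum]
      exact Finset.sum_congr rfl fun i _ => L.π_smul _ _
    have hli : LinearIndependent R (fun i => L.π (B i)) := by
      rw [Fintype.linearIndependent_iff]
      intro g hg i
      choose a ha using fun i => L.ψ_surjective (g i)
      have h1 : L.π (∑ i, a i • B i) = 0 := by
        rw [hsum, ← hg]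
        exact Finset.sum_congr rfl fun i _ => by rw [ha]
      rw [L.ker_π] at h1
      have h2 := hcoord _ h1 i
      have h3 : B.repr (∑ i, a i • B i) i = a i := by
        rw [← B.equivFun_apply, B.equivFun_apply]
        simp [Finsupp.single_apply]
      rw [h3] at h2
      rw [← ha i]
      exact hle h2
    have hsp : ⊤ ≤ Submodule.span R (Set.range fun i => L.π (B i)) := by
      intro m _
      obtain ⟨x, rfl⟩ := L.π_surjective m
      rw [← B.sum_equivFun x, hsum]
      exact Submodule.sum_mem _ fun i _ =>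
        Submodule.smul_mem _ _ (Submodule.subset_span ⟨i, rfl⟩)
    exact Module.Free.of_basis (Module.Basis.mk hli hsp)
  · rw [eq_bot_iff]
    intro ρ hρ
    obtain ⟨f, rfl⟩ := L.ψ_surjective ρ
    rw [Module.mem_annihilator] at hρ
    have := hle (hkey f hρ)
    simpa using this

end Fermat.Agent.S57
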